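import Fermat.Agent.Lib.Gamma0Count.Basic

set_option autoImplicit false

open Matrix ModularGroup CongruenceSubgroup
open scoped MatrixGroups

namespace Fermat.Agent.Lib.Gamma0Count

open ModularCurve in
lemma dedekindPsi_prime_mul_of_dvd {p N : ℕ} (hp : p.Prime) (hN : N ≠ 0) (hpN : p ∣ N) :
    dedekindPsi (p * N) = p * dedekindPsi N := by
  unfold dedekindPsi
  have hset : (p * N).divisors.filter Squarefree = N.divisors.filter Squarefree := by
    ext d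
    simp only [Finset.mem_filter, Nat.mem_divisors]
    constructor
    · rintro ⟨⟨hd, -⟩, hsq⟩
      refine ⟨⟨?_, hN⟩, hsq⟩
      have h2 : d ∣ N ^ 2 := hd.trans (by rw [sq]; exact Nat.mul_dvd_mul_right hpN N)
      exact (hsq.dvd_pow_iff_dvd two_ne_zero).mp h2
    · rintro ⟨⟨hd, -⟩, hsq⟩
      exact ⟨⟨hd.mul_left p, Nat.mul_ne_zero hp.ne_zero hN⟩, hsq⟩
  rw [hset, Finset.mul_sum]
  refine Finset.sum_congr rfl fun d hd => ?_
  simp only [Finset.mem_filter, Nat.mem_divisors] at hd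
  exact Nat.mul_div_assoc p hd.1.1

open ModularCurve in
lemma dedekindPsi_prime_mul_of_not_dvd {p N : ℕ} (hp : p.Prime) (hN : N ≠ 0) (hpN : ¬ p ∣ N) :
    dedekindPsi (p * N) = (p + 1) * dedekindPsi N := by
  unfold dedekindPsi
  set A := N.divisors.filter Squarefree with hA
  have hAmem : ∀ d, d ∈ A ↔ d ∣ N ∧ Squarefree d := by
    intro d
    simp only [hA, Finset.mem_filter, Nat.mem_divisors]
    tauto
  have hset : (p * N).divisors.filter Squarefree = A ∪ A.image (p * ·) := by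
    ext d
    simp only [Finset.mem_filter, Nat.mem_divisors, Finset.mem_union, Finset.mem_image, hAmem]
    constructor
    · rintro ⟨⟨hd, -⟩, hsq⟩
      by_cases hpd : p ∣ d
      · obtain ⟨e, rfl⟩ := hpd
        right
        exact ⟨e, ⟨Nat.dvd_of_mul_dvd_mul_left hp.pos hd, hsq.squarefree_of_dvd (Dvd.intro_left p rfl)⟩,
          rfl⟩
      · left
        have hcop : Nat.Coprime d p := ((Nat.Prime.coprime_iff_not_dvd hp).mpr hpd).symm
        exact ⟨hcop.dvd_of_dvd_mul_left hd, hsq⟩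
    · rintro (⟨hd, hsq⟩ | ⟨e, ⟨he, hsq⟩, rfl⟩)
      · exact ⟨⟨hd.mul_left p, Nat.mul_ne_zero hp.ne_zero hN⟩, hsq⟩
      · refine ⟨⟨Nat.mul_dvd_mul_left p he, Nat.mul_ne_zero hp.ne_zero hN⟩, ?_⟩
        have hcop : Nat.Coprime p e :=
          (Nat.Prime.coprime_iff_not_dvd hp).mpr fun h => hpN (h.trans he)
        exact (Nat.squarefree_mul hcop).mpr ⟨hp.squarefree, hsq⟩
  have hdisj : Disjoint A (A.image (p * ·)) := by
    rw [Finset.disjoint_left]
    intro d hd hd'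
    simp only [Finset.mem_image, hAmem] at hd'
    obtain ⟨e, -, rfl⟩ := hd'
    exact hpN ((Dvd.intro e rfl).trans ((hAmem _).mp hd).1)
  rw [hset, Finset.sum_union hdisj, Finset.sum_image
    (fun x _ y _ h => Nat.eq_of_mul_eq_mul_left hp.pos h), add_mul, one_mul, Finset.mul_sum]
  congr 1
  · refine Finset.sum_congr rfl fun d hd => ?_
    exact Nat.mul_div_assoc p ((hAmem d).mp hd).1
  · refine Finset.sum_congr rfl fun d _ => ?_
    exact Nat.mul_div_mul_left N d hp.pos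

lemma relcoset_eq_iff {M N : ℕ} (g h : Gamma0 N) :
    (g : Gamma0 N ⧸ (Gamma0 M).subgroupOf (Gamma0 N)) = h ↔
      (M : ℤ) ∣ (g : SL(2, ℤ)) 0 0 * (h : SL(2, ℤ)) 1 0 -
        (g : SL(2, ℤ)) 1 0 * (h : SL(2, ℤ)) 0 0 := by
  rw [QuotientGroup.eq, Subgroup.mem_subgroupOf, ← coset_eq_iff, QuotientGroup.eq]
  rfl

def lowSL (N : ℕ) (t : ℤ) : SL(2, ℤ) :=
  ⟨!![1, 0; (N : ℤ) * t, 1], by rw [Matrix.det_fin_two_of]; ring⟩

lemma lowSL_zero_zero (N : ℕ) (t : ℤ) : lowSL N t 0 0 = 1 := by simp [lowSL]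
lemma lowSL_one_zero (N : ℕ) (t : ℤ) : lowSL N t 1 0 = (N : ℤ) * t := by simp [lowSL]

/-- The lower unipotent element of `Gamma0 N` with lower-left entry `N * t`. -/
def low (N : ℕ) (t : ℤ) : Gamma0 N :=
  ⟨lowSL N t, by rw [Gamma0_mem, lowSL_one_zero]; simp⟩

@[simp] lemma low_zero_zero (N : ℕ) (t : ℤ) : (low N t : SL(2, ℤ)) 0 0 = 1 := lowSL_zero_zero N t
@[simp] lemma low_one_zero (N : ℕ) (t : ℤ) : (low N t : SL(2, ℤ)) 1 0 = (N : ℤ) * t :=
  lowSL_one_zero N t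

lemma exists_eq_mul_of_mem {N : ℕ} (g : Gamma0 N) : ∃ c : ℤ, (g : SL(2, ℤ)) 1 0 = (N : ℤ) * c := by
  have := g.2
  rw [Gamma0_mem, ZMod.intCast_zmod_eq_zero_iff_dvd] at this
  exact this

lemma relcoset_eq_low_iff {p N : ℕ} (hN : N ≠ 0) (g : Gamma0 N) (c t : ℤ)
    (hc : (g : SL(2, ℤ)) 1 0 = (N : ℤ) * c) :
    (g : Gamma0 N ⧸ (Gamma0 (p * N)).subgroupOf (Gamma0 N)) = low N t ↔
      (((g : SL(2, ℤ)) 0 0 : ℤ) : ZMod p) * t = c := by
  have hN' : (N : ℤ) ≠ 0 := by exact_mod_cast hN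
  rw [relcoset_eq_iff, low_zero_zero, low_one_zero, hc, ← Int.cast_mul,
    ZMod.intCast_eq_intCast_iff_dvd_sub]
  have : ((p * N : ℕ) : ℤ) = (N : ℤ) * p := by push_cast; ring
  rw [this, show (g : SL(2, ℤ)) 0 0 * ((N : ℤ) * t) - (N : ℤ) * c * 1 =
    (N : ℤ) * ((g : SL(2, ℤ)) 0 0 * t - c) by ring, mul_dvd_mul_iff_left hN', ← dvd_neg]
  ring_nf

lemma low_injective {p N : ℕ} [NeZero p] (hN : N ≠ 0) :
    Function.Injective (fun t : ZMod p =>
      ((low N (t.cast : ℤ) : Gamma0 N) : Gamma0 N ⧸ (Gamma0 (p * N)).subgroupOf (Gamma0 N))) := by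
  intro s t hst
  simp only at hst
  rw [relcoset_eq_low_iff hN _ (s.cast : ℤ) _ (low_one_zero _ _), low_zero_zero] at hst
  simpa using hst.symm

lemma exists_low_of_not_dvd {p N : ℕ} (hp : p.Prime) (hN : N ≠ 0) (g : Gamma0 N)
    (hg : ¬ (p : ℤ) ∣ (g : SL(2, ℤ)) 0 0) :
    ∃ t : ZMod p, ((low N (t.cast : ℤ) : Gamma0 N) :
      Gamma0 N ⧸ (Gamma0 (p * N)).subgroupOf (Gamma0 N)) = g := by
  have : Fact p.Prime := ⟨hp⟩
  obtain ⟨c, hc⟩ := exists_eq_mul_of_mem g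
  have ha : (((g : SL(2, ℤ)) 0 0 : ℤ) : ZMod p) ≠ 0 := by
    rwa [Ne, ZMod.intCast_zmod_eq_zero_iff_dvd]
  refine ⟨(((g : SL(2, ℤ)) 0 0 : ℤ) : ZMod p)⁻¹ * c, ?_⟩
  symm
  rw [relcoset_eq_low_iff hN g c _ hc]
  simp only [ZMod.intCast_cast, ZMod.cast_id', id_eq]
  rw [← mul_assoc, mul_inv_cancel₀ ha, one_mul]

lemma relIndex_of_dvd {p N : ℕ} (hp : p.Prime) (hN : N ≠ 0) (hpN : p ∣ N) :
    (Gamma0 (p * N)).relIndex (Gamma0 N) = p := by
  have : NeZero p := ⟨hp.ne_zero⟩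
  rw [Subgroup.relIndex, Subgroup.index]
  have hbij : Function.Bijective (fun t : ZMod p =>
      ((low N (t.cast : ℤ) : Gamma0 N) :
        Gamma0 N ⧸ (Gamma0 (p * N)).subgroupOf (Gamma0 N))) := by
    refine ⟨low_injective hN, fun y => ?_⟩
    obtain ⟨g, rfl⟩ := QuotientGroup.mk_surjective y
    refine exists_low_of_not_dvd hp hN g fun hdvd => ?_
    obtain ⟨c, hc⟩ := exists_eq_mul_of_mem g
    have hcop := isCoprime_col (g : SL(2, ℤ))
    have h2 : (p : ℤ) ∣ (g : SL(2, ℤ)) 1 0 := by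
      rw [hc]; exact Dvd.dvd.mul_right (by exact_mod_cast hpN) c
    have := hcop.isUnit_of_dvd' hdvd h2
    rw [Int.isUnit_iff] at this
    have h3 := hp.two_le
    omega
  rw [← Nat.card_congr (Equiv.ofBijective _ hbij), Nat.card_zmod]

lemma relIndex_of_not_dvd {p N : ℕ} (hp : p.Prime) (hN : N ≠ 0) (hpN : ¬ p ∣ N) :
    (Gamma0 (p * N)).relIndex (Gamma0 N) = p + 1 := by
  have : NeZero p := ⟨hp.ne_zero⟩
  rw [Subgroup.relIndex, Subgroup.index]
  have hN' : (N : ℤ) ≠ 0 := by exact_mod_cast hN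
  have hcop : IsCoprime (p : ℤ) (N : ℤ) :=
    Nat.isCoprime_iff_coprime.mpr ((Nat.Prime.coprime_iff_not_dvd hp).mpr hpN)
  obtain ⟨g0, hg00, hg10⟩ := exists_col hcop
  have hg0mem : g0 ∈ Gamma0 N := by rw [Gamma0_mem, hg10]; simp
  let ginf : Gamma0 N := ⟨g0, hg0mem⟩
  have key : ∀ g : Gamma0 N, (g : Gamma0 N ⧸ (Gamma0 (p * N)).subgroupOf (Gamma0 N)) = ginf ↔
      (p : ℤ) ∣ (g : SL(2, ℤ)) 0 0 := by
    intro g
    obtain ⟨c, hc⟩ := exists_eq_mul_of_mem g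
    rw [relcoset_eq_iff]
    show ((p * N : ℕ) : ℤ) ∣ (g : SL(2, ℤ)) 0 0 * g0 1 0 - (g : SL(2, ℤ)) 1 0 * g0 0 0 ↔ _
    rw [hg00, hg10, hc]
    have : ((p * N : ℕ) : ℤ) = (N : ℤ) * p := by push_cast; ring
    rw [this, show (g : SL(2, ℤ)) 0 0 * (N : ℤ) - (N : ℤ) * c * p =
      (N : ℤ) * ((g : SL(2, ℤ)) 0 0 - c * p) by ring, mul_dvd_mul_iff_left hN']
    exact (dvd_sub_left (Dvd.intro_left c rfl))
  let f : Option (ZMod p) → Gamma0 N ⧸ (Gamma0 (p * N)).subgroupOf (Gamma0 N) := fun o =>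
    match o with
    | none => (ginf : Gamma0 N ⧸ (Gamma0 (p * N)).subgroupOf (Gamma0 N))
    | some t => ((low N (t.cast : ℤ) : Gamma0 N) :
        Gamma0 N ⧸ (Gamma0 (p * N)).subgroupOf (Gamma0 N))
  have hne : ∀ t : ZMod p, ((low N (t.cast : ℤ) : Gamma0 N) :
        Gamma0 N ⧸ (Gamma0 (p * N)).subgroupOf (Gamma0 N)) ≠ ginf := by
    intro t ht
    rw [key, low_zero_zero] at ht
    have := Int.isUnit_iff.mp (isUnit_of_dvd_one ht)
    have h3 := hp.two_le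
    omega
  have hbij : Function.Bijective f := by
    constructor
    · rintro (_ | s) (_ | t) hst
      · rfl
      · exact absurd hst.symm (hne t)
      · exact absurd hst (hne s)
      · exact congrArg some (low_injective hN hst)
    · intro y
      obtain ⟨g, rfl⟩ := QuotientGroup.mk_surjective y
      by_cases hg : (p : ℤ) ∣ (g : SL(2, ℤ)) 0 0
      · exact ⟨none, ((key g).mpr hg).symm⟩
      · obtain ⟨t, ht⟩ := exists_low_of_not_dvd hp hN g hg
        exact ⟨some t, ht⟩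
  rw [← Nat.card_congr (Equiv.ofBijective _ hbij), Nat.card_eq_fintype_card, Fintype.card_option,
    ZMod.card]

lemma Gamma0_le_of_dvd {M N : ℕ} (h : N ∣ M) : Gamma0 M ≤ Gamma0 N := by
  intro g hg
  rw [Gamma0_mem, ZMod.intCast_zmod_eq_zero_iff_dvd] at hg ⊢
  exact (Int.natCast_dvd_natCast.mpr h).trans hg

theorem index_eq (N : ℕ) [NeZero N] : (Gamma0 N).index = ModularCurve.dedekindPsi N := by
  have hN := NeZero.ne N
  clear ‹NeZero N›
  induction N using induction_on_primes with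
  | zero => exact absurd rfl hN
  | one =>
    have : Gamma0 1 = ⊤ := by
      ext g
      simp only [Gamma0_mem, Subgroup.mem_top, iff_true]
      exact Subsingleton.elim _ _
    rw [this, Subgroup.index_top, ModularCurve.dedekindPsi_one]
  | prime_mul p N hp ih =>
    have hN0 : N ≠ 0 := fun h => hN (by rw [h, mul_zero])
    rw [← Subgroup.relIndex_mul_index (Gamma0_le_of_dvd (Dvd.intro_left p rfl)), ih hN0]
    by_cases hpN : p ∣ N
    · rw [relIndex_of_dvd hp hN0 hpN, dedekindPsi_prime_mul_of_dvd hp hN0 hpN]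
    · rw [relIndex_of_not_dvd hp hN0 hpN, dedekindPsi_prime_mul_of_not_dvd hp hN0 hpN]

theorem card_coset_eq (N : ℕ) [NeZero N] :
    Nat.card (SL(2, ℤ) ⧸ Gamma0 N) = ModularCurve.dedekindPsi N := index_eq N

end Fermat.Agent.Lib.Gamma0Count
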