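import Fermat.Agent.Lib.Gamma0Count.Basic

set_option autoImplicit false

open Matrix ModularGroup CongruenceSubgroup
open scoped MatrixGroups

namespace Fermat.Agent.Lib.Gamma0Count

lemma exists_dvd_add_mul_iff (n b m : ℤ) :
    (∃ k : ℤ, n ∣ b + k * m) ↔ (Int.gcd m n : ℤ) ∣ b := by
  constructor
  · rintro ⟨k, hk⟩
    have h1 : (Int.gcd m n : ℤ) ∣ b + k * m := (Int.gcd_dvd_right m n).trans hk
    have h2 : (Int.gcd m n : ℤ) ∣ k * m := (Int.gcd_dvd_left m n).mul_left k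
    exact (dvd_add_left h2).mp h1
  · rintro ⟨t, ht⟩
    refine ⟨-(Int.gcdA m n * t), Int.gcdB m n * t, ?_⟩
    rw [ht, Int.gcd_eq_gcd_ab]
    ring

variable {N : ℕ}

/-- The projection from `SL(2, ℤ)` to the set of `T`-orbits on `SL(2, ℤ) ⧸ Gamma0 N`. -/
def toOrbit (N : ℕ) (g : SL(2, ℤ)) :
    MulAction.orbitRel.Quotient (Subgroup.zpowers T) (SL(2, ℤ) ⧸ Gamma0 N) :=
  Quotient.mk'' (g : SL(2, ℤ) ⧸ Gamma0 N)

lemma toOrbit_surjective : Function.Surjective (toOrbit N) := by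
  intro y
  obtain ⟨x, rfl⟩ := Quotient.mk''_surjective y
  obtain ⟨g, rfl⟩ := QuotientGroup.mk_surjective x
  exact ⟨g, rfl⟩

lemma toOrbit_eq_iff (g h : SL(2, ℤ)) :
    toOrbit N g = toOrbit N h ↔
      (Int.gcd (g 1 0 * h 1 0) N : ℤ) ∣ h 0 0 * g 1 0 - h 1 0 * g 0 0 := by
  unfold toOrbit
  rw [Quotient.eq'', MulAction.orbitRel_apply, MulAction.mem_orbit_iff, Subgroup.exists_zpowers,
    ← exists_dvd_add_mul_iff]
  refine exists_congr fun k => ?_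
  show (T ^ k) • (h : SL(2, ℤ) ⧸ Gamma0 N) = g ↔ _
  rw [smul_coset, coset_eq_iff, (T_zpow_mul_col k h).1, (T_zpow_mul_col k h).2]
  ring_nf

/-! ### Arithmetic of the orbit relation -/

lemma gcd_dvd_of_rel {n a c a' c' : ℤ} (h : IsCoprime a c)
    (hrel : (Int.gcd (c * c') n : ℤ) ∣ a' * c - c' * a) : Int.gcd c n ∣ Int.gcd c' n := by
  have h1 : (Int.gcd c n : ℤ) ∣ c := Int.gcd_dvd_left c n
  have h2 : (Int.gcd c n : ℤ) ∣ n := Int.gcd_dvd_right c n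
  have h3 : (Int.gcd c n : ℤ) ∣ (Int.gcd (c * c') n : ℤ) := Int.dvd_coe_gcd (h1.mul_right c') h2
  have h4 : (Int.gcd c n : ℤ) ∣ c' * a := by
    have := (dvd_sub_right (h1.mul_left a')).mp (h3.trans hrel)
    exact this
  have h5 : IsCoprime (Int.gcd c n : ℤ) a := (h.symm).of_isCoprime_of_dvd_left h1
  have h6 : (Int.gcd c n : ℤ) ∣ c' := h5.dvd_of_dvd_mul_right h4
  exact Int.natCast_dvd_natCast.mp (Int.dvd_coe_gcd h6 h2)

lemma gcd_eq_of_rel {n a c a' c' : ℤ} (h : IsCoprime a c) (h' : IsCoprime a' c')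
    (hrel : (Int.gcd (c * c') n : ℤ) ∣ a' * c - c' * a) : Int.gcd c n = Int.gcd c' n := by
  refine Nat.dvd_antisymm (gcd_dvd_of_rel h hrel) (gcd_dvd_of_rel (a' := a) h' ?_)
  rw [mul_comm c' c, ← dvd_neg, show -(a * c' - c * a') = a' * c - c' * a by ring]
  exact hrel

/-- The modulus `gcd (δ, N / δ)` attached to a divisor `δ` of `N`. -/
def gg (N δ : ℕ) : ℕ := Nat.gcd δ (N / δ)

lemma rel_iff_of_gcd_eq {N δ : ℕ} (hN : N ≠ 0) {a c a' c' : ℤ}
    (hc : Int.gcd c N = δ) (hc' : Int.gcd c' N = δ) :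
    (Int.gcd (c * c') N : ℤ) ∣ a' * c - c' * a ↔
      (gg N δ : ℤ) ∣ a' * (c / δ) - (c' / δ) * a := by
  have hδN : δ ∣ N := by
    rw [← hc]; exact Int.natCast_dvd_natCast.mp (Int.gcd_dvd_right c N)
  have hδ0 : δ ≠ 0 := fun h => hN (by rw [h] at hδN; exact Nat.eq_zero_of_zero_dvd hδN)
  have hδ0' : (δ : ℤ) ≠ 0 := by exact_mod_cast hδ0
  obtain ⟨M, rfl⟩ := hδN
  have hM : δ * M / δ = M := Nat.mul_div_cancel_left M (Nat.pos_of_ne_zero hδ0)
  have hpos : 0 < Int.gcd c ((δ * M : ℕ) : ℤ) := by rw [hc]; exact Nat.pos_of_ne_zero hδ0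
  have hpos' : 0 < Int.gcd c' ((δ * M : ℕ) : ℤ) := by rw [hc']; exact Nat.pos_of_ne_zero hδ0
  have hMdiv : ((δ * M : ℕ) : ℤ) / (δ : ℤ) = M := by
    push_cast; exact Int.mul_ediv_cancel_left _ hδ0'
  have h1 : Int.gcd (c / δ) M = 1 := by
    have := Int.gcd_div_gcd_div_gcd hpos
    rwa [hc, hMdiv] at this
  have h1' : Int.gcd (c' / δ) M = 1 := by
    have := Int.gcd_div_gcd_div_gcd hpos'
    rwa [hc', hMdiv] at this
  obtain ⟨c₁, hc₁⟩ : (δ : ℤ) ∣ c := by rw [← hc]; exact Int.gcd_dvd_left c _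
  obtain ⟨c₁', hc₁'⟩ : (δ : ℤ) ∣ c' := by rw [← hc']; exact Int.gcd_dvd_left c' _
  have e1 : c / δ = c₁ := by rw [hc₁]; exact Int.mul_ediv_cancel_left _ hδ0'
  have e1' : c' / δ = c₁' := by rw [hc₁']; exact Int.mul_ediv_cancel_left _ hδ0'
  rw [e1] at h1 ⊢
  rw [e1'] at h1' ⊢
  have hgcd : Int.gcd (c * c') ((δ * M : ℕ) : ℤ) = δ * gg (δ * M) δ := by
    rw [gg, hM, hc₁, hc₁']
    have : (δ : ℤ) * c₁ * ((δ : ℤ) * c₁') = (δ : ℤ) * ((δ : ℤ) * (c₁ * c₁')) := by ring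
    rw [this]
    push_cast
    rw [Int.gcd_mul_left, Int.natAbs_natCast]
    congr 1
    rw [Int.gcd_def, Int.natAbs_mul, Int.natAbs_natCast, Int.natAbs_natCast]
    apply Nat.Coprime.gcd_mul_right_cancel
    rw [Int.natAbs_mul]
    apply Nat.Coprime.mul_left
    · simpa [Int.gcd_def] using h1
    · simpa [Int.gcd_def] using h1'
  rw [hgcd, hc₁, hc₁']
  push_cast
  rw [show a' * ((δ : ℤ) * c₁) - (δ : ℤ) * c₁' * a = (δ : ℤ) * (a' * c₁ - c₁' * a) by ring,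
    mul_dvd_mul_iff_left hδ0']

lemma gg_dvd_left (N δ : ℕ) : gg N δ ∣ δ := Nat.gcd_dvd_left _ _

lemma gg_dvd_right (N δ : ℕ) : gg N δ ∣ N / δ := Nat.gcd_dvd_right _ _

lemma gg_ne_zero {N δ : ℕ} (hδ : δ ≠ 0) : gg N δ ≠ 0 := by
  unfold gg
  exact Nat.gcd_ne_zero_left hδ

lemma gcd_ne_zero_of_ne_zero {N : ℕ} (hN : N ≠ 0) (c : ℤ) : Int.gcd c N ≠ 0 := by
  intro h
  rw [Int.gcd_eq_zero_iff] at h
  exact hN (by exact_mod_cast h.2)

lemma isUnit_div {N δ : ℕ} (hN : N ≠ 0) {c : ℤ} (hc : Int.gcd c N = δ) :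
    IsUnit (((c / (δ : ℤ) : ℤ)) : ZMod (gg N δ)) := by
  rw [ZMod.coe_int_isUnit_iff_isCoprime]
  have hδ0 : δ ≠ 0 := hc ▸ gcd_ne_zero_of_ne_zero hN c
  have hpos : 0 < Int.gcd c (N : ℤ) := by rw [hc]; exact Nat.pos_of_ne_zero hδ0
  have h1 := Int.gcd_div_gcd_div_gcd hpos
  rw [hc] at h1
  have h2 : IsCoprime (c / (δ : ℤ)) ((N : ℤ) / (δ : ℤ)) := Int.isCoprime_iff_gcd_eq_one.mpr h1
  have h3 : ((gg N δ : ℕ) : ℤ) ∣ (N : ℤ) / (δ : ℤ) := by
    rw [← Int.natCast_div]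
    exact Int.natCast_dvd_natCast.mpr (gg_dvd_right N δ)
  exact (h2.symm).of_isCoprime_of_dvd_left h3

lemma isUnit_fst {N δ : ℕ} {a c : ℤ} (h : IsCoprime a c) (hc : Int.gcd c N = δ) :
    IsUnit ((a : ℤ) : ZMod (gg N δ)) := by
  rw [ZMod.coe_int_isUnit_iff_isCoprime]
  have h3 : ((gg N δ : ℕ) : ℤ) ∣ c :=
    (Int.natCast_dvd_natCast.mpr (gg_dvd_left N δ)).trans (hc ▸ Int.gcd_dvd_left c N)
  exact (h.symm).of_isCoprime_of_dvd_left h3

/-- The second invariant of a `T`-orbit, as a natural number. -/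
def rv (N δ : ℕ) (a c : ℤ) : ℕ :=
  (((a : ℤ) : ZMod (gg N δ)) * (((c / (δ : ℤ) : ℤ)) : ZMod (gg N δ))⁻¹).val

lemma rv_eq_iff {N δ : ℕ} (hN : N ≠ 0) {a c a' c' : ℤ}
    (hc : Int.gcd c N = δ) (hc' : Int.gcd c' N = δ) :
    rv N δ a c = rv N δ a' c' ↔ (gg N δ : ℤ) ∣ a' * (c / δ) - (c' / δ) * a := by
  have hδ0 : δ ≠ 0 := hc ▸ gcd_ne_zero_of_ne_zero hN c
  have : NeZero (gg N δ) := ⟨gg_ne_zero hδ0⟩
  unfold rv
  rw [(ZMod.val_injective (gg N δ)).eq_iff, ← ZMod.intCast_zmod_eq_zero_iff_dvd]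
  push_cast
  have hu := ZMod.mul_inv_of_unit _ (isUnit_div hN hc)
  have hu' := ZMod.mul_inv_of_unit _ (isUnit_div hN hc')
  set u : ZMod (gg N δ) := ((c / (δ : ℤ) : ℤ) : ZMod (gg N δ)) with hudef
  set u' : ZMod (gg N δ) := ((c' / (δ : ℤ) : ℤ) : ZMod (gg N δ)) with hu'def
  constructor
  · intro h
    have : (a' : ZMod (gg N δ)) * u - u' * a = 0 := by
      linear_combination (-(u * u')) * h + ((a : ZMod (gg N δ)) * u') * hu +
        (-(a' : ZMod (gg N δ)) * u) * hu'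
    simpa [hudef, hu'def] using this
  · intro h
    have h' : (a' : ZMod (gg N δ)) * u - u' * a = 0 := by
      simpa [hudef, hu'def] using h
    linear_combination (-(u⁻¹ * u'⁻¹)) * h' + ((a' : ZMod (gg N δ)) * u'⁻¹) * hu +
        (-(a : ZMod (gg N δ)) * u⁻¹) * hu'

/-- The complete invariant of the `T`-orbit of the coset of `g`. -/
def cuspInv (N : ℕ) (g : SL(2, ℤ)) : (_ : ℕ) × ℕ :=
  ⟨Int.gcd (g 1 0) N, rv N (Int.gcd (g 1 0) N) (g 0 0) (g 1 0)⟩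

lemma cuspInv_eq_iff (hN : N ≠ 0) (g h : SL(2, ℤ)) :
    cuspInv N g = cuspInv N h ↔ toOrbit N g = toOrbit N h := by
  rw [toOrbit_eq_iff]
  unfold cuspInv
  constructor
  · intro heq
    rw [Sigma.mk.injEq] at heq
    obtain ⟨h1, h2⟩ := heq
    have h2' := eq_of_heq h2
    rw [h1] at h2'
    rw [rel_iff_of_gcd_eq hN h1 rfl, ← rv_eq_iff hN h1 rfl]
    exact h2'
  · intro hrel
    have h1 := gcd_eq_of_rel (isCoprime_col g) (isCoprime_col h) hrel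
    rw [rel_iff_of_gcd_eq hN h1 rfl, ← rv_eq_iff hN h1 rfl] at hrel
    rw [Sigma.mk.injEq]
    refine ⟨h1, heq_of_eq ?_⟩
    rw [h1]
    exact hrel

/-- The explicit finite set of invariants. -/
def cuspTarget (N : ℕ) : Finset ((_ : ℕ) × ℕ) :=
  N.divisors.sigma fun δ => (Finset.range (gg N δ)).filter fun r => (gg N δ).Coprime r

lemma card_cuspTarget (N : ℕ) : (cuspTarget N).card = ModularCurve.cuspCount N := by
  rw [cuspTarget, Finset.card_sigma]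
  rfl

lemma range_cuspInv (hN : N ≠ 0) : Set.range (cuspInv N) = ↑(cuspTarget N) := by
  ext ⟨δ, r⟩
  simp only [Set.mem_range, cuspTarget, Finset.coe_sigma, Set.mem_sigma_iff, Finset.mem_coe,
    Nat.mem_divisors, Finset.mem_filter, Finset.mem_range]
  constructor
  · rintro ⟨g, hg⟩
    unfold cuspInv at hg
    rw [Sigma.mk.injEq] at hg
    obtain ⟨h1, h2⟩ := hg
    have h2' := eq_of_heq h2
    subst h1
    have hδ0 := gcd_ne_zero_of_ne_zero hN (g 1 0)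
    have : NeZero (gg N (Int.gcd (g 1 0) N)) := ⟨gg_ne_zero hδ0⟩
    refine ⟨⟨Int.natCast_dvd_natCast.mp (Int.gcd_dvd_right _ _), hN⟩, ?_, ?_⟩
    · rw [← h2']; exact ZMod.val_lt _
    · rw [← h2']
      have hu : IsUnit ((((g 0 0 : ℤ)) : ZMod (gg N (Int.gcd (g 1 0) N))) *
          (((g 1 0 / ((Int.gcd (g 1 0) N : ℕ) : ℤ) : ℤ)) : ZMod (gg N (Int.gcd (g 1 0) N)))⁻¹) := by
        refine (isUnit_fst (isCoprime_col g) rfl).mul ?_
        have h3 := ZMod.mul_inv_of_unit _ (isUnit_div (c := g 1 0) hN rfl)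
        exact IsUnit.of_mul_eq_one _ (by rw [mul_comm]; exact h3)
      obtain ⟨u, hu⟩ := hu
      unfold rv
      rw [← hu]
      exact (ZMod.val_coe_unit_coprime u).symm
  · rintro ⟨⟨hδN, -⟩, hr, hcop⟩
    have hδ0 : δ ≠ 0 := fun h => hN (by rw [h] at hδN; exact Nat.eq_zero_of_zero_dvd hδN)
    have : NeZero δ := ⟨hδ0⟩
    have : NeZero (gg N δ) := ⟨gg_ne_zero hδ0⟩
    obtain ⟨v, hv⟩ := ZMod.unitsMap_surjective (gg_dvd_left N δ) (ZMod.unitOfCoprime r hcop.symm)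
    have hcop2 : IsCoprime (((v : ZMod δ).val : ℕ) : ℤ) (δ : ℤ) :=
      Nat.isCoprime_iff_coprime.mpr (ZMod.val_coe_unit_coprime v)
    obtain ⟨g, hg0, hg1⟩ := exists_col hcop2
    refine ⟨g, ?_⟩
    unfold cuspInv
    have hgcd : Int.gcd (g 1 0) N = δ := by
      rw [hg1, Int.gcd_natCast_natCast]
      exact Nat.gcd_eq_left hδN
    rw [hgcd, Sigma.mk.injEq]
    refine ⟨rfl, heq_of_eq ?_⟩
    unfold rv
    rw [hg0, hg1, Int.ediv_self (by exact_mod_cast hδ0)]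
    have hv' := congrArg (fun u : (ZMod (gg N δ))ˣ => (u : ZMod (gg N δ))) hv
    simp only [ZMod.unitsMap_def, Units.coe_map, MonoidHom.coe_coe, ZMod.castHom_apply,
      ZMod.coe_unitOfCoprime] at hv'
    have hone : (1 : ZMod (gg N δ))⁻¹ = 1 := by
      have := ZMod.mul_inv_of_unit (1 : ZMod (gg N δ)) isUnit_one
      rwa [one_mul] at this
    rw [Int.cast_natCast, ZMod.natCast_val, hv', Int.cast_one, hone, mul_one, ZMod.val_natCast,
      Nat.mod_eq_of_lt hr]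

theorem card_orbits_T (N : ℕ) [NeZero N] :
    Nat.card (MulAction.orbitRel.Quotient (Subgroup.zpowers T) (SL(2, ℤ) ⧸ Gamma0 N)) =
      ModularCurve.cuspCount N := by
  have hN := NeZero.ne N
  have hker : Setoid.ker (toOrbit N) = Setoid.ker (cuspInv N) := by
    ext g h
    simp only [Setoid.ker_def]
    exact (cuspInv_eq_iff hN g h).symm
  have e1 := Setoid.quotientKerEquivOfSurjective (toOrbit N) toOrbit_surjective
  have e2 := Setoid.quotientKerEquivRange (cuspInv N)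
  rw [← Nat.card_congr e1, hker, Nat.card_congr e2, range_cuspInv hN, Nat.card_coe_set_eq,
    Set.ncard_coe_finset, card_cuspTarget]

end Fermat.Agent.Lib.Gamma0Count
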