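import Fermat.Agent.Lib.Gamma0Count.Elliptic
import Fermat.Agent.Lib.Gamma0Count.Index
import Fermat.Agent.Lib.Gamma0Count.Cusps

set_option autoImplicit false

open Matrix ModularGroup CongruenceSubgroup
open scoped MatrixGroups

namespace Fermat.Agent.Lib.Gamma0Count

/-- Orbit count for a permutation of prime order (or trivial): `p * #orbits = |X| + (p-1) * #Fix`. -/
theorem prime_mul_card_orbits {X : Type*} [Fintype X] (σ : Equiv.Perm X) (p : ℕ) (hp : p.Prime)
    (hσ : σ ^ p = 1) :
    p * Nat.card (MulAction.orbitRel.Quotient (Subgroup.zpowers σ) X) =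
      Fintype.card X + (p - 1) * Nat.card {x // σ x = x} := by
  classical
  have : Fact p.Prime := ⟨hp⟩
  have hfin : Finite (Subgroup.zpowers σ) := inferInstance
  have : Fintype (Subgroup.zpowers σ) := Fintype.ofFinite _
  have hB := MulAction.sum_card_fixedBy_eq_card_orbits_mul_card_group (Subgroup.zpowers σ) X
  have hQ : Fintype.card (Quotient (MulAction.orbitRel (Subgroup.zpowers σ) X)) =
      Nat.card (MulAction.orbitRel.Quotient (Subgroup.zpowers σ) X) :=
    (Nat.card_eq_fintype_card).symm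
  rw [hQ] at hB
  have hone : Fintype.card (MulAction.fixedBy X (1 : Subgroup.zpowers σ)) = Fintype.card X := by
    rw [← Nat.card_eq_fintype_card, ← Nat.card_eq_fintype_card]
    refine Nat.card_congr (Equiv.subtypeUnivEquiv fun x => ?_)
    simp
  by_cases h1 : σ = 1
  · subst h1
    have hcard : Fintype.card (Subgroup.zpowers (1 : Equiv.Perm X)) = 1 := by
      rw [← Nat.card_eq_fintype_card, Nat.card_zpowers, orderOf_one]
    have huniq : ∀ a : Subgroup.zpowers (1 : Equiv.Perm X), a = 1 := by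
      have := Fintype.card_le_one_iff_subsingleton.mp hcard.le
      intro a; exact Subsingleton.elim _ _
    have hsum : ∑ g : Subgroup.zpowers (1 : Equiv.Perm X), Fintype.card (MulAction.fixedBy X g) =
        Fintype.card X := by
      rw [Fintype.sum_eq_single (1 : Subgroup.zpowers (1 : Equiv.Perm X))
        (fun a ha => absurd (huniq a) ha), hone]
    rw [hsum, hcard, mul_one] at hB
    have hfix : Nat.card {x : X // (1 : Equiv.Perm X) x = x} = Fintype.card X := by
      rw [← Nat.card_eq_fintype_card]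
      exact Nat.card_congr (Equiv.subtypeUnivEquiv fun x => rfl)
    rw [← hB, hfix]
    have := hp.one_le
    obtain ⟨q, rfl⟩ : ∃ q, p = q + 1 := ⟨p - 1, by omega⟩
    simp only [Nat.add_sub_cancel]
    ring
  · have hord : orderOf σ = p := orderOf_eq_prime hσ h1
    have hcardN : Nat.card (Subgroup.zpowers σ) = p := by rw [Nat.card_zpowers, hord]
    have hcard : Fintype.card (Subgroup.zpowers σ) = p := by
      rw [← Nat.card_eq_fintype_card, hcardN]
    have hne : ∀ a : Subgroup.zpowers σ, a ≠ 1 →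
        Fintype.card (MulAction.fixedBy X a) = Nat.card {x // σ x = x} := by
      intro a ha
      rw [← Nat.card_eq_fintype_card]
      refine Nat.card_congr (Equiv.subtypeEquivRight fun x => ?_)
      rw [MulAction.mem_fixedBy]
      constructor
      · intro hx
        have hmem : (⟨σ, Subgroup.mem_zpowers σ⟩ : Subgroup.zpowers σ) ∈ Subgroup.zpowers a :=
          mem_zpowers_of_prime_card hcardN ha
        obtain ⟨k, hk⟩ := Subgroup.mem_zpowers_iff.mp hmem
        have hk' : ((a : Equiv.Perm X)) ^ k = σ := by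
          have := congrArg Subtype.val hk
          simpa using this
        rw [← hk']
        exact Equiv.Perm.zpow_apply_eq_self_of_apply_eq_self hx k
      · intro hx
        obtain ⟨k, hk⟩ := Subgroup.mem_zpowers_iff.mp a.2
        show (a : Equiv.Perm X) x = x
        rw [← hk]
        exact Equiv.Perm.zpow_apply_eq_self_of_apply_eq_self hx k
    have hsum : ∑ g : Subgroup.zpowers σ, Fintype.card (MulAction.fixedBy X g) =
        Fintype.card X + (p - 1) * Nat.card {x // σ x = x} := by
      rw [← Finset.add_sum_erase Finset.univ _ (Finset.mem_univ (1 : Subgroup.zpowers σ)), hone,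
        Finset.sum_congr rfl (fun a ha => hne a (Finset.ne_of_mem_erase ha)), Finset.sum_const,
        Finset.card_erase_of_mem (Finset.mem_univ _), Finset.card_univ, hcard, smul_eq_mul]
    rw [hsum, hcard] at hB
    rw [hB, mul_comm]

/-- The orbits of `zpowers (toPerm g)` and of `zpowers g` agree. -/
theorem card_orbits_toPerm {G X : Type*} [Group G] [MulAction G X] (g : G)
    [MulAction (Subgroup.zpowers g) X]
    (hsmul : ∀ (h : Subgroup.zpowers g) (x : X), h • x = (h : G) • x) :
    Nat.card (MulAction.orbitRel.Quotient (Subgroup.zpowers (MulAction.toPerm g : Equiv.Perm X)) X)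
      = Nat.card (MulAction.orbitRel.Quotient (Subgroup.zpowers g) X) := by
  refine Nat.card_congr (Quotient.congr (Equiv.refl X) fun a b => ?_)
  simp only [Equiv.refl_apply]
  rw [MulAction.orbitRel_apply, MulAction.orbitRel_apply, MulAction.mem_orbit_iff,
    MulAction.mem_orbit_iff, Subgroup.exists_zpowers, Subgroup.exists_zpowers]
  refine exists_congr fun k => ?_
  have : (MulAction.toPerm g : Equiv.Perm X) ^ k = MulAction.toPerm (g ^ k) :=
    (map_zpow (MulAction.toPermHom G X) g k).symm
  rw [hsmul]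
  show ((MulAction.toPerm g : Equiv.Perm X) ^ k) b = a ↔ (g ^ k) • b = a
  rw [this]
  rfl

variable {N : ℕ}

lemma neg_one_smul_coset (x : SL(2, ℤ) ⧸ Gamma0 N) : (-1 : SL(2, ℤ)) • x = x := by
  obtain ⟨g, rfl⟩ := QuotientGroup.mk_surjective x
  rw [smul_coset, coset_eq_iff]
  simp only [neg_mul, one_mul, Matrix.SpecialLinearGroup.coe_neg, Matrix.neg_apply]
  exact ⟨0, by ring⟩

lemma toPerm_S_sq : (MulAction.toPerm S : Equiv.Perm (SL(2, ℤ) ⧸ Gamma0 N)) ^ 2 = 1 := by
  have h : (S : SL(2, ℤ)) ^ 2 = -1 := by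
    ext i j
    fin_cases i <;> fin_cases j <;> simp [sq, ModularGroup.coe_S, Matrix.mul_apply, Fin.sum_univ_two]
  have h2 : (MulAction.toPerm S : Equiv.Perm (SL(2, ℤ) ⧸ Gamma0 N)) ^ 2 = MulAction.toPerm (S ^ 2) :=
    (map_pow (MulAction.toPermHom SL(2, ℤ) (SL(2, ℤ) ⧸ Gamma0 N)) S 2).symm
  rw [h2, h]
  ext x
  exact neg_one_smul_coset x

lemma toPerm_ST_cube : (MulAction.toPerm (S * T) : Equiv.Perm (SL(2, ℤ) ⧸ Gamma0 N)) ^ 3 = 1 := by
  have h : (S * T : SL(2, ℤ)) ^ 3 = -1 := by
    ext i j
    fin_cases i <;> fin_cases j <;>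
      simp [pow_succ, ModularGroup.coe_S, ModularGroup.coe_T, Matrix.mul_apply, Fin.sum_univ_two]
  have h2 : (MulAction.toPerm (S * T) : Equiv.Perm (SL(2, ℤ) ⧸ Gamma0 N)) ^ 3 =
      MulAction.toPerm ((S * T) ^ 3) :=
    (map_pow (MulAction.toPermHom SL(2, ℤ) (SL(2, ℤ) ⧸ Gamma0 N)) (S * T) 3).symm
  rw [h2, h]
  ext x
  exact neg_one_smul_coset x

theorem two_mul_card_orbits_S (N : ℕ) [NeZero N] :
    2 * Nat.card (MulAction.orbitRel.Quotient (Subgroup.zpowers S) (SL(2, ℤ) ⧸ Gamma0 N)) =
      ModularCurve.dedekindPsi N + ModularCurve.nuTwo N := by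
  have : Fintype (SL(2, ℤ) ⧸ Gamma0 N) := Subgroup.fintypeQuotientOfFiniteIndex
  rw [← card_orbits_toPerm S (fun _ _ => rfl), prime_mul_card_orbits _ 2 Nat.prime_two toPerm_S_sq,
    ← Nat.card_eq_fintype_card, card_coset_eq, ← card_fixedBy_S]
  simp only [Nat.add_one_sub_one, one_mul]
  rfl

theorem three_mul_card_orbits_ST (N : ℕ) [NeZero N] :
    3 * Nat.card (MulAction.orbitRel.Quotient (Subgroup.zpowers (S * T)) (SL(2, ℤ) ⧸ Gamma0 N)) =
      ModularCurve.dedekindPsi N + 2 * ModularCurve.nuThree N := by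
  have : Fintype (SL(2, ℤ) ⧸ Gamma0 N) := Subgroup.fintypeQuotientOfFiniteIndex
  rw [← card_orbits_toPerm (S * T) (fun _ _ => rfl),
    prime_mul_card_orbits _ 3 Nat.prime_three toPerm_ST_cube,
    ← Nat.card_eq_fintype_card, card_coset_eq, ← card_fixedBy_ST]
  simp only [Nat.add_one_sub_one]
  rfl

end Fermat.Agent.Lib.Gamma0Count
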