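import Fermat.Agent.Lib.Gamma0Count.Basic

set_option autoImplicit false

open Matrix ModularGroup CongruenceSubgroup
open scoped MatrixGroups

namespace Fermat.Agent.Lib.Gamma0Count

variable {N : ℕ}

/-- The matrix with first column `(a, 1)`. -/
def aff (a : ℤ) : SL(2, ℤ) := ⟨!![a, -1; 1, 0], by rw [Matrix.det_fin_two_of]; ring⟩

@[simp] lemma aff_zero_zero (a : ℤ) : aff a 0 0 = a := by simp [aff]
@[simp] lemma aff_one_zero (a : ℤ) : aff a 1 0 = 1 := by simp [aff]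

lemma coset_aff_eq_iff (a b : ℤ) :
    (aff a : SL(2, ℤ) ⧸ Gamma0 N) = aff b ↔ (a : ZMod N) = b := by
  rw [coset_eq_iff, aff_zero_zero, aff_one_zero, aff_zero_zero, aff_one_zero,
    ZMod.intCast_eq_intCast_iff_dvd_sub, ← dvd_neg]
  ring_nf

lemma coset_eq_aff_iff (g : SL(2, ℤ)) (b : ℤ) :
    (g : SL(2, ℤ) ⧸ Gamma0 N) = aff b ↔ ((g 0 0 : ℤ) : ZMod N) = (g 1 0 : ℤ) * b := by
  rw [coset_eq_iff, aff_zero_zero, aff_one_zero, ← Int.cast_mul,
    ZMod.intCast_eq_intCast_iff_dvd_sub, ← dvd_neg]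
  ring_nf

/-- General count of the fixed points of an element acting on cosets through a quadratic
condition `a ^ 2 + e * a * c + c ^ 2 ≡ 0`. -/
lemma card_fixedBy_of_quadratic [NeZero N] (x : SL(2, ℤ)) (e : ℤ)
    (hx : ∀ g : SL(2, ℤ), x • (g : SL(2, ℤ) ⧸ Gamma0 N) = g ↔
      (N : ℤ) ∣ g 0 0 ^ 2 + e * g 0 0 * g 1 0 + g 1 0 ^ 2) :
    Nat.card (MulAction.fixedBy (SL(2, ℤ) ⧸ Gamma0 N) x) =
      Nat.card {t : ZMod N // t ^ 2 + e * t + 1 = 0} := by
  symm
  have hmem : ∀ t : ZMod N, t ^ 2 + e * t + 1 = 0 →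
      ((aff (t.cast : ℤ) : SL(2, ℤ)) : SL(2, ℤ) ⧸ Gamma0 N) ∈
        MulAction.fixedBy (SL(2, ℤ) ⧸ Gamma0 N) x := by
    intro t ht
    rw [MulAction.mem_fixedBy, hx, aff_zero_zero, aff_one_zero,
      ← ZMod.intCast_zmod_eq_zero_iff_dvd]
    push_cast
    linear_combination ht
  refine Nat.card_congr (Equiv.ofBijective
    (fun t => ⟨((aff (t.1.cast : ℤ) : SL(2, ℤ)) : SL(2, ℤ) ⧸ Gamma0 N), hmem t.1 t.2⟩) ⟨?_, ?_⟩)
  · intro s t hst
    have h1 := congrArg Subtype.val hst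
    simp only at h1
    rw [coset_aff_eq_iff, ZMod.intCast_cast, ZMod.cast_id', id_eq, ZMod.intCast_cast,
      ZMod.cast_id', id_eq] at h1
    exact Subtype.ext h1
  · rintro ⟨y, hy⟩
    obtain ⟨g, rfl⟩ := QuotientGroup.mk_surjective y
    rw [MulAction.mem_fixedBy, hx, ← ZMod.intCast_zmod_eq_zero_iff_dvd] at hy
    push_cast at hy
    set a : ZMod N := ((g 0 0 : ℤ) : ZMod N) with ha
    set c : ZMod N := ((g 1 0 : ℤ) : ZMod N) with hc
    have hcop : IsCoprime a c := by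
      have := (isCoprime_col g).map (Int.castRingHom (ZMod N))
      simpa using this
    have hdvd : c ∣ a ^ 2 := ⟨-(e * a + c), by linear_combination hy⟩
    have hunit : IsUnit c := (hcop.pow_left (m := 2)).isUnit_of_dvd' hdvd dvd_rfl
    obtain ⟨u, hu⟩ := hunit
    have hu' : c * (↑u⁻¹ : ZMod N) = 1 := by rw [← hu]; exact u.mul_inv
    set t : ZMod N := a * (↑u⁻¹ : ZMod N) with ht
    have hat : a = c * t := by rw [ht]; linear_combination (-a) * hu'
    have htq : t ^ 2 + e * t + 1 = 0 := by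
      have : c ^ 2 * (t ^ 2 + e * t + 1) = 0 := by
        have h2 := hy
        rw [hat] at h2
        linear_combination h2
      have hc2 : IsUnit (c ^ 2) := (hu ▸ u.isUnit).pow 2
      exact (hc2.mul_right_eq_zero).mp this
    refine ⟨⟨t, htq⟩, Subtype.ext ?_⟩
    simp only
    symm
    rw [coset_eq_aff_iff, ZMod.intCast_cast, ZMod.cast_id', id_eq]
    exact hat

theorem card_fixedBy_S [NeZero N] :
    Nat.card (MulAction.fixedBy (SL(2, ℤ) ⧸ Gamma0 N) S) = ModularCurve.nuTwo N := by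
  rw [card_fixedBy_of_quadratic S 0, ModularCurve.nuTwo]
  · simp
  · intro g
    rw [smul_coset, coset_eq_iff, (S_mul_col g).1, (S_mul_col g).2, ← dvd_neg]
    ring_nf

theorem card_fixedBy_ST [NeZero N] :
    Nat.card (MulAction.fixedBy (SL(2, ℤ) ⧸ Gamma0 N) (S * T)) = ModularCurve.nuThree N := by
  rw [card_fixedBy_of_quadratic (S * T) 1, ModularCurve.nuThree]
  · simp
  · intro g
    rw [smul_coset, coset_eq_iff, (ST_mul_col g).1, (ST_mul_col g).2, ← dvd_neg]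
    ring_nf

end Fermat.Agent.Lib.Gamma0Count
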