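import Mathlib
import Fermat.Prelude.Def_ModularCurve_GenusNumerics

set_option autoImplicit false

open Matrix ModularGroup CongruenceSubgroup
open scoped MatrixGroups

namespace Fermat.Agent.Lib.Gamma0Count

variable {N : ℕ}

/-- Two cosets of `Gamma0 N` agree iff the first columns are proportional mod `N`. -/
lemma coset_eq_iff (g h : SL(2, ℤ)) :
    (g : SL(2, ℤ) ⧸ Gamma0 N) = h ↔ (N : ℤ) ∣ g 0 0 * h 1 0 - g 1 0 * h 0 0 := by
  rw [QuotientGroup.eq, Gamma0_mem, ZMod.intCast_zmod_eq_zero_iff_dvd]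
  have : (g⁻¹ * h) 1 0 = g 0 0 * h 1 0 - g 1 0 * h 0 0 := by
    rw [Matrix.SpecialLinearGroup.coe_mul, Matrix.SpecialLinearGroup.coe_inv,
      Matrix.adjugate_fin_two, Matrix.mul_apply, Fin.sum_univ_two]
    simp
    ring
  rw [this]

lemma det_eq (g : SL(2, ℤ)) : g 0 0 * g 1 1 - g 0 1 * g 1 0 = 1 := by
  have := g.det_coe
  rwa [Matrix.det_fin_two] at this

lemma isCoprime_col (g : SL(2, ℤ)) : IsCoprime (g 0 0) (g 1 0) :=
  ⟨g 1 1, -g 0 1, by have := det_eq g; linarith⟩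

/-- A matrix in `SL(2, ℤ)` with prescribed coprime first column. -/
lemma exists_col {a c : ℤ} (h : IsCoprime a c) : ∃ g : SL(2, ℤ), g 0 0 = a ∧ g 1 0 = c := by
  obtain ⟨u, v, huv⟩ := h
  refine ⟨⟨!![a, -v; c, u], ?_⟩, ?_, ?_⟩
  · rw [Matrix.det_fin_two_of]; linarith
  · simp
  · simp

lemma smul_coset (x g : SL(2, ℤ)) :
    x • (g : SL(2, ℤ) ⧸ Gamma0 N) = ((x * g : SL(2, ℤ)) : SL(2, ℤ) ⧸ Gamma0 N) := rfl

lemma S_mul_col (g : SL(2, ℤ)) : (S * g) 0 0 = - g 1 0 ∧ (S * g) 1 0 = g 0 0 := by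
  constructor <;> simp [ModularGroup.coe_S, Matrix.mul_apply, Fin.sum_univ_two]

lemma T_mul_col (g : SL(2, ℤ)) : (T * g) 0 0 = g 0 0 + g 1 0 ∧ (T * g) 1 0 = g 1 0 := by
  constructor <;> simp [ModularGroup.coe_T, Matrix.mul_apply, Fin.sum_univ_two]

lemma T_zpow_mul_col (k : ℤ) (g : SL(2, ℤ)) :
    (T ^ k * g) 0 0 = g 0 0 + k * g 1 0 ∧ (T ^ k * g) 1 0 = g 1 0 := by
  constructor <;> simp [ModularGroup.coe_T_zpow, Matrix.mul_apply, Fin.sum_univ_two]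

lemma ST_mul_col (g : SL(2, ℤ)) :
    (S * T * g) 0 0 = - g 1 0 ∧ (S * T * g) 1 0 = g 0 0 + g 1 0 := by
  rw [mul_assoc]
  obtain ⟨h1, h2⟩ := S_mul_col (T * g)
  obtain ⟨h3, h4⟩ := T_mul_col g
  rw [h1, h2, h3, h4]
  exact ⟨rfl, rfl⟩

end Fermat.Agent.Lib.Gamma0Count
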